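import Mathlib.RingTheory.MvPolynomial.Homogeneous
import Mathlib.LinearAlgebra.FiniteDimensional.Lemmas
import Mathlib.Algebra.Polynomial.Degree.Lemmas
import Mathlib.Algebra.Polynomial.BigOperators
import Mathlib.Tactic.LinearCombination
import Mathlib.Algebra.Polynomial.Eval.Degree

/-!
# A cubic form with a zero in a quadratic extension

The line through two conjugate zeros meets the cubic in a third point, which is rational.
-/

set_option autoImplicit false
set_option linter.unusedSectionVars false
set_option linter.style.haveILetI false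

noncomputable section

namespace FA.AmerBrumer

variable {ι : Type*} [Fintype ι] {k : Type*} [Field k]

theorem coeff_line_monomial (m : ι →₀ ℕ) (u w : ι → k) :
    (∏ i, (Polynomial.C (u i) + Polynomial.X * Polynomial.C (w i)) ^ m i).natDegree ≤ ∑ i, m i ∧
      (∏ i, (Polynomial.C (u i) + Polynomial.X * Polynomial.C (w i)) ^ m i).coeff (∑ i, m i) =
        ∏ i, w i ^ m i := by
  classical
  have hl : ∀ i, (Polynomial.C (u i) + Polynomial.X * Polynomial.C (w i)).natDegree ≤ 1 := fun i =>
    Polynomial.natDegree_add_le_of_degree_le (by simp)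
      (Polynomial.natDegree_mul_le.trans (by simp))
  suffices h : ∀ s : Finset ι,
      (∏ i ∈ s, (Polynomial.C (u i) + Polynomial.X * Polynomial.C (w i)) ^ m i).natDegree ≤
          ∑ i ∈ s, m i ∧
        (∏ i ∈ s, (Polynomial.C (u i) + Polynomial.X * Polynomial.C (w i)) ^ m i).coeff
          (∑ i ∈ s, m i) = ∏ i ∈ s, w i ^ m i from h _
  intro s
  induction s using Finset.induction_on with
  | empty => simp
  | insert i s hi ih =>
    rw [Finset.prod_insert hi, Finset.sum_insert hi, Finset.prod_insert hi]
    have hp : ((Polynomial.C (u i) + Polynomial.X * Polynomial.C (w i)) ^ m i).natDegree ≤ m i :=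
      (Polynomial.natDegree_pow_le_of_le (m i) (hl i)).trans (by omega)
    refine ⟨Polynomial.natDegree_mul_le.trans (Nat.add_le_add hp ih.1), ?_⟩
    rw [Polynomial.coeff_mul_add_eq_of_natDegree_le hp ih.1, ih.2]
    congr 1
    have h := Polynomial.coeff_pow_of_natDegree_le (m := m i) (hl i)
    rw [mul_one] at h
    rw [h]
    simp

/-- The restriction of a cubic form to the line `u + X w`. -/
theorem line_cubic {F : MvPolynomial ι k} (hF : F.IsHomogeneous 3) (u w : ι → k) :
    (MvPolynomial.aeval (fun i => Polynomial.C (u i) + Polynomial.X * Polynomial.C (w i))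
        F).natDegree ≤ 3 ∧
      (MvPolynomial.aeval (fun i => Polynomial.C (u i) + Polynomial.X * Polynomial.C (w i))
        F).coeff 3 = MvPolynomial.eval w F := by
  classical
  rw [MvPolynomial.aeval_def, MvPolynomial.eval₂_eq', MvPolynomial.eval_eq']
  have hd : ∀ m ∈ F.support, ∑ i, m i = 3 := fun m hm => by
    have := hF (MvPolynomial.mem_support_iff.1 hm)
    rwa [Finsupp.weight_apply, Finsupp.sum_fintype _ _ (by simp), Finset.sum_congr rfl
      (fun i _ => show m i • (1 : ι → ℕ) i = m i by simp)] at this
  refine ⟨Polynomial.natDegree_sum_le_of_forall_le _ _ fun m hm => ?_, ?_⟩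
  · exact Polynomial.natDegree_C_mul_le _ _ |>.trans
      ((coeff_line_monomial m u w).1.trans (hd m hm).le)
  · rw [Polynomial.finsetSum_coeff]
    refine Finset.sum_congr rfl fun m hm => ?_
    rw [Polynomial.algebraMap_eq, Polynomial.coeff_C_mul]
    congr 1
    rw [← hd m hm]
    exact (coeff_line_monomial m u w).2

theorem aeval_smul_zero {L : Type*} [Field L] [Algebra k L] {F : MvPolynomial ι k}
    (hF : F.IsHomogeneous 3) {c : L} (hc : c ≠ 0) {v : ι → L}
    (h : MvPolynomial.aeval (c • v) F = 0) : MvPolynomial.aeval v F = 0 := by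
  classical
  have e : MvPolynomial.aeval (c • v) F = c ^ 3 * MvPolynomial.aeval v F := by
    simp only [MvPolynomial.aeval_def, MvPolynomial.eval₂_eq', Finset.mul_sum]
    refine Finset.sum_congr rfl fun m hm => ?_
    have hd : ∑ i, m i = 3 := by
      have := hF (MvPolynomial.mem_support_iff.1 hm)
      rwa [Finsupp.weight_apply, Finsupp.sum_fintype _ _ (by simp), Finset.sum_congr rfl
        (fun i _ => show m i • (1 : ι → ℕ) i = m i by simp)] at this
    simp only [Pi.smul_apply, smul_eq_mul, mul_pow, Finset.prod_mul_distrib,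
      Finset.prod_pow_eq_pow_sum, hd]
    ring
  rw [e] at h
  exact (mul_eq_zero.1 h).resolve_left (pow_ne_zero _ hc)

/-- **A zero in a quadratic extension gives one over the ground field.** -/
theorem cubic_quadratic {L : Type*} [Field L] [Algebra k L] (h2 : Module.finrank k L = 2)
    {F : MvPolynomial ι k} (hF : F.IsHomogeneous 3) {x : ι → L} (hx : x ≠ 0)
    (hFx : MvPolynomial.aeval x F = 0) : ∃ e : ι → k, e ≠ 0 ∧ MvPolynomial.eval e F = 0 := by
  haveI : FiniteDimensional k L := Module.finite_of_finrank_pos (by omega)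
  set ι₀ := algebraMap k L
  -- a generator
  obtain ⟨a, ha⟩ : ∃ a : L, ∀ r : k, a ≠ ι₀ r := by
    by_contra! h
    have htop : (⊤ : Submodule k L) ≤ Submodule.span k {1} := fun z _ => by
      obtain ⟨r, hr⟩ := h z
      exact Submodule.mem_span_singleton.2 ⟨r, by rw [hr, Algebra.smul_def, mul_one]⟩
    have := (Submodule.finrank_mono htop).trans (finrank_span_le_card ({1} : Set L))
    simp [finrank_top, h2] at this
  have hind : LinearIndependent k ![1, a] := by
    refine LinearIndependent.pair_iff.2 fun s t hst => ?_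
    by_cases ht : t = 0
    · subst ht
      simpa [Algebra.smul_def] using hst
    · refine absurd ?_ (ha (-s / t))
      rw [Algebra.smul_def, Algebra.smul_def] at hst
      rw [map_div₀, map_neg, eq_div_iff ((map_ne_zero_iff _ ι₀.injective).2 ht)]
      linear_combination hst
  let b := basisOfLinearIndependentOfCardEqFinrank hind (by simp [h2])
  have hspan : ∀ z : L, ∃ p q : k, z = ι₀ p + ι₀ q * a := fun z => by
    refine ⟨b.repr z 0, b.repr z 1, ?_⟩
    conv_lhs => rw [← b.sum_repr z]
    simp [b, Fin.sum_univ_two, Algebra.smul_def, ι₀]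
  choose u w huw using fun i => hspan (x i)
  obtain ⟨q, p, haa⟩ := hspan (a * a)
  have hmap : ∀ v : ι → k, MvPolynomial.aeval (ι₀ ∘ v) F = ι₀ (MvPolynomial.eval v F) := by
    intro v
    rw [MvPolynomial.aeval_def, ← MvPolynomial.eval₂_id, MvPolynomial.eval₂_comp_left ι₀]
    rfl
  by_cases hw0 : w = 0
  · refine ⟨u, fun hu => hx (funext fun i => by simp [huw i, hu, hw0]), ι₀.injective ?_⟩
    have e : x = ι₀ ∘ u := funext fun i => by simp [huw i, hw0]
    rw [map_zero, ← hFx, e, hmap]
  by_cases hFw : MvPolynomial.eval w F = 0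
  · exact ⟨w, hw0, hFw⟩
  set P := MvPolynomial.aeval (fun i => Polynomial.C (u i) + Polynomial.X * Polynomial.C (w i)) F
    with hP
  obtain ⟨hdeg, hlead⟩ := line_cubic hF u w
  rw [← hP] at hdeg hlead
  have hPa : Polynomial.aeval a P = 0 := by
    rw [hP, ← AlgHom.comp_apply, MvPolynomial.comp_aeval, ← hFx]
    congr 2
    funext i
    simp [huw i, ι₀]
  have hPsum : P = Polynomial.C (P.coeff 0) + Polynomial.C (P.coeff 1) * Polynomial.X +
      Polynomial.C (P.coeff 2) * Polynomial.X ^ 2 +
      Polynomial.C (P.coeff 3) * Polynomial.X ^ 3 := by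
    conv_lhs => rw [P.as_sum_range_C_mul_X_pow' (show P.natDegree < 4 by omega)]
    rw [Finset.sum_range_succ, Finset.sum_range_succ, Finset.sum_range_succ, Finset.sum_range_succ,
      Finset.sum_range_zero]
    ring
  rw [hPsum] at hPa
  set a₀ := P.coeff 0
  set a₁ := P.coeff 1
  set a₂ := P.coeff 2
  set a₃ := P.coeff 3 with ha₃def
  have ha₃ : a₃ ≠ 0 := hlead ▸ hFw
  simp only [map_add, map_mul, map_pow, Polynomial.aeval_C, Polynomial.aeval_X] at hPa
  obtain ⟨e0, e1⟩ := LinearIndependent.pair_iff.1 hind (a₀ + a₂ * q + a₃ * p * q)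
    (a₁ + a₂ * p + a₃ * (p ^ 2 + q)) (by
      simp only [Algebra.smul_def, map_add, map_mul, map_pow, mul_one]
      linear_combination hPa - (ι₀ a₂ + ι₀ a₃ * a + ι₀ a₃ * ι₀ p) * haa)
  set r := -(a₂ + a₃ * p) / a₃ with hr
  refine ⟨fun i => u i + r * w i, fun h => hx ?_, ?_⟩
  · -- the zero would then be proportional to `w`, so `F w = 0`
    exfalso
    have hu : u = fun i => -r * w i := funext fun i => by
      have := congrFun h i
      simp only [Pi.zero_apply] at this
      linear_combination this
    have hx' : x = (a - ι₀ r) • (ι₀ ∘ w) := funext fun i => by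
      simp only [huw i, hu, Pi.smul_apply, Function.comp_apply, smul_eq_mul, map_mul, map_neg]
      ring
    have hne : a - ι₀ r ≠ 0 := sub_ne_zero.2 (ha r)
    have hs := aeval_smul_zero hF hne (hx' ▸ hFx)
    exact hFw (ι₀.injective (by
      rw [map_zero, ← hs, hmap]))
  · have hev : MvPolynomial.eval (fun i => u i + r * w i) F = P.eval r := by
      rw [hP, ← Polynomial.coe_aeval_eq_eval, ← AlgHom.comp_apply, MvPolynomial.comp_aeval,
        MvPolynomial.aeval_eq_eval]
      congr 2
      funext i
      simp
      ring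
    rw [hev, hPsum]
    simp only [Polynomial.eval_add, Polynomial.eval_mul, Polynomial.eval_pow, Polynomial.eval_C,
      Polynomial.eval_X]
    have hr' : a₃ * r + a₂ + a₃ * p = 0 := by rw [hr]; field_simp; ring
    linear_combination (r ^ 2 - p * r - q) * hr' + e0 + r * e1

end FA.AmerBrumer
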