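import Fermat.Agent.AmerBrumer.Pencil
import Fermat.Agent.Pfister.Springer
import Mathlib.LinearAlgebra.QuadraticForm.IsometryEquiv
import Mathlib.LinearAlgebra.Matrix.ToLin
import Mathlib.LinearAlgebra.Matrix.BilinearForm
import Mathlib.Algebra.MvPolynomial.Funext

/-!
# Common zeros in extensions of odd degree

Springer's theorem for an arbitrary form, by diagonalisation, applied to the pencil over `k(T)`.
-/

set_option autoImplicit false
set_option linter.unusedSectionVars false
set_option linter.style.haveILetI false

noncomputable section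

open Polynomial

namespace FA.AmerBrumer

variable {ι : Type*} [Fintype ι]

/-- A diagonalisation, as polynomial identities. -/
theorem exists_diagonal {K : Type*} [Field K] [Infinite K] (h2 : (2 : K) ≠ 0) (A : ι → ι → K) :
    ∃ (n : ℕ) (w : Fin n → K) (P : Fin n → ι → K) (P' : ι → Fin n → K),
      (∑ i, ∑ j, MvPolynomial.C (A i j) * MvPolynomial.X i * MvPolynomial.X j : MvPolynomial ι K) =
          ∑ m, MvPolynomial.C (w m) * (∑ i, MvPolynomial.C (P m i) * MvPolynomial.X i) ^ 2 ∧
        (∀ i, (MvPolynomial.X i : MvPolynomial ι K) = ∑ m, MvPolynomial.C (P' i m) *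
          ∑ j, MvPolynomial.C (P m j) * MvPolynomial.X j) ∧
        ∀ (y : Fin n → K) m, ∑ i, P m i * ∑ m', P' i m' * y m' = y m := by
  classical
  haveI : Invertible (2 : K) := invertibleOfNonzero h2
  obtain ⟨w, ⟨e⟩⟩ := QuadraticForm.equivalent_weightedSumSquares
    (LinearMap.BilinMap.toQuadraticMap (Matrix.toBilin' (Matrix.of A)) : QuadraticForm K (ι → K))
  set P : Fin (Module.finrank K (ι → K)) → ι → K := fun m i =>
    e.toLinearEquiv (Pi.single i 1) m with hP
  set P' : ι → Fin (Module.finrank K (ι → K)) → K := fun i m =>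
    e.toLinearEquiv.symm (Pi.single m 1) i with hP'
  have hlin : ∀ x : ι → K, ∀ m, e.toLinearEquiv x m = ∑ i, P m i * x i := by
    intro x m
    conv_lhs => rw [pi_eq_sum_univ' x, map_sum, Finset.sum_apply]
    exact Finset.sum_congr rfl fun i _ => by
      rw [map_smul, Pi.smul_apply, smul_eq_mul, mul_comm]
  have hlin' : ∀ y : Fin (Module.finrank K (ι → K)) → K, ∀ i,
      e.toLinearEquiv.symm y i = ∑ m, P' i m * y m := by
    intro y i
    conv_lhs => rw [pi_eq_sum_univ' y, map_sum, Finset.sum_apply]
    exact Finset.sum_congr rfl fun m _ => by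
      rw [map_smul, Pi.smul_apply, smul_eq_mul, mul_comm]
  refine ⟨_, w, P, P', MvPolynomial.funext fun x => ?_, fun i => MvPolynomial.funext fun x => ?_,
    fun y m => ?_⟩
  · have := e.map_app x
    rw [QuadraticMap.weightedSumSquares_apply, LinearMap.BilinMap.toQuadraticMap_apply,
      Matrix.toBilin'_apply] at this
    simp only [map_sum, map_mul, map_pow, MvPolynomial.eval_C, MvPolynomial.eval_X, ← hlin]
    refine Eq.trans ?_ (this.symm.trans (Finset.sum_congr rfl fun m _ => ?_))
    · exact Finset.sum_congr rfl fun i _ => Finset.sum_congr rfl fun j _ => by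
        rw [Matrix.of_apply]; ring
    · rw [smul_eq_mul, sq]
      rfl
  · simp only [map_sum, map_mul, MvPolynomial.eval_C, MvPolynomial.eval_X, ← hlin]
    rw [← hlin', LinearEquiv.symm_apply_apply]
  · simp only [← hlin', ← hlin]
    rw [LinearEquiv.apply_symm_apply]

/-- **Springer** for an arbitrary form. -/
theorem springer {K L : Type*} [Field K] [Infinite K] [Field L] [Algebra K L]
    [FiniteDimensional K L] (h2 : (2 : K) ≠ 0) (hodd : Odd (Module.finrank K L)) (A : ι → ι → K)
    (hA : ∀ x : ι → K, quadVal A x = 0 → x = 0) (x : ι → L)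
    (hx : quadVal (fun i j => algebraMap K L (A i j)) x = 0) : x = 0 := by
  classical
  obtain ⟨n, w, P, P', hid, hinv, hright⟩ := exists_diagonal h2 A
  have han : FA.Pfister.Anisotropic w := by
    intro y hy
    set z : ι → K := fun i => ∑ m, P' i m * y m with hz
    have hq := congrArg (MvPolynomial.eval z) hid
    simp only [map_sum, map_mul, map_pow, MvPolynomial.eval_C, MvPolynomial.eval_X] at hq
    have hPz : ∀ m, ∑ i, P m i * z i = y m := hright y
    simp only [hPz] at hq
    have hz0 := hA z (hq.trans hy)
    funext m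
    rw [← hPz m, hz0]
    simp
  have hq := congrArg (MvPolynomial.aeval x) hid
  simp only [map_sum, map_mul, map_pow, MvPolynomial.aeval_C, MvPolynomial.aeval_X] at hq
  have hy := han.of_odd_finrank (L := L) hodd (fun m => ∑ i, algebraMap K L (P m i) * x i)
    (hq.symm.trans hx)
  funext i
  have hi := congrArg (MvPolynomial.aeval x) (hinv i)
  simp only [map_sum, map_mul, MvPolynomial.aeval_C, MvPolynomial.aeval_X] at hi
  rw [hi]
  simp [fun m => congrFun hy m]

attribute [local instance] Polynomial.algebra
open scoped RatFunc in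
/-- **Brumer's theorem**: a common zero of two quadratic forms in an extension of odd degree gives
one over the ground field. -/
theorem brumer {k L : Type*} [Field k] [Field L] [Algebra k L] [FiniteDimensional k L]
    (h2 : (2 : k) ≠ 0) (hodd : Odd (Module.finrank k L)) (A B : ι → ι → k) (x : ι → L) (hx : x ≠ 0)
    (hA : quadVal (fun i j => algebraMap k L (A i j)) x = 0)
    (hB : quadVal (fun i j => algebraMap k L (B i j)) x = 0) :
    ∃ e : ι → k, e ≠ 0 ∧ quadVal A e = 0 ∧ quadVal B e = 0 := by
  rw [amer_brumer_iff]
  by_contra! hno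
  haveI : Infinite (RatFunc k) := Infinite.of_injective _ (RatFunc.algebraMap_injective k)
  have hfr : Module.finrank (RatFunc k) (RatFunc L) = Module.finrank k L :=
    RatFunc.finrank_ratFunc_ratFunc k L
  haveI : FiniteDimensional (RatFunc k) (RatFunc L) :=
    Module.finite_of_finrank_pos (by rw [hfr]; exact hodd.pos)
  have h2' : (2 : RatFunc k) ≠ 0 := by
    rw [← map_ofNat (algebraMap k (RatFunc k)) 2]
    exact (map_ne_zero_iff _ (algebraMap k (RatFunc k)).injective).2 h2
  set φ := algebraMap k[X] (RatFunc k)
  set ψ := algebraMap L[X] (RatFunc L) with hψ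
  have hM : (fun i j => RatFunc.C (A i j) + RatFunc.X * RatFunc.C (B i j)) =
      fun i j => φ (pencilMat A B i j) := by
    funext i j; simp [pencilMat, φ]; ring
  rw [hM] at hno
  have hcomm : ∀ p : k[X], algebraMap (RatFunc k) (RatFunc L) (φ p) =
      ψ (p.map (algebraMap k L)) := by
    intro p
    rw [← IsScalarTower.algebraMap_apply, IsScalarTower.algebraMap_apply k[X] L[X] (RatFunc L)]
    rfl
  set y : ι → RatFunc L := fun i => ψ (C (x i))
  have hy : y ≠ 0 := fun h => hx (funext fun i => by
    have := congrFun h i
    simpa [y, ψ] using this)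
  refine hy (springer (L := RatFunc L) h2' (by rw [hfr]; exact hodd)
    (fun i j => φ (pencilMat A B i j)) (fun v hv => ?_) y ?_)
  · by_contra hv0
    exact hno v hv0 hv
  · simp only [hcomm]
    have e : (fun i j => (pencilMat A B i j).map (algebraMap k L)) =
        pencilMat (fun i j => algebraMap k L (A i j)) (fun i j => algebraMap k L (B i j)) := by
      funext i j; simp [pencilMat]
    change quadVal (fun i j => ψ ((fun i j => (pencilMat A B i j).map (algebraMap k L)) i j))
      (ψ ∘ fun i => C (x i)) = 0
    rw [e, ← map_quadVal, quadVal_pencil_const, hA, hB]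
    simp

end FA.AmerBrumer
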