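import Mathlib.Algebra.Polynomial.Degree.Lemmas
import Mathlib.FieldTheory.RatFunc.AsPolynomial
import Mathlib.RingTheory.Localization.Integer

/-!
# The theorem of Amer and Brumer

A polynomial zero of `f + t g` of degree `d > 0` has leading vector `e` with `g e = 0`; unless also
`f e = 0`, the reflection in `e` gives a zero of smaller degree.
-/

set_option autoImplicit false
set_option linter.unusedSectionVars false

noncomputable section

open Polynomial

namespace FA.AmerBrumer

variable {ι : Type*} [Fintype ι] {R : Type*} [CommRing R]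

/-- The quadratic form with coefficient matrix `A`. -/
def quadVal (A : ι → ι → R) (v : ι → R) : R := ∑ i, ∑ j, A i j * v i * v j

/-- Its polar form. -/
def polVal (A : ι → ι → R) (u v : ι → R) : R := ∑ i, ∑ j, A i j * (u i * v j + v i * u j)

theorem quadVal_add_smul (A : ι → ι → R) (a b : R) (u v : ι → R) :
    quadVal A (a • u + b • v) =
      a ^ 2 * quadVal A u + a * b * polVal A u v + b ^ 2 * quadVal A v := by
  simp only [quadVal, polVal, Pi.add_apply, Pi.smul_apply, smul_eq_mul, Finset.mul_sum,
    ← Finset.sum_add_distrib]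
  exact Finset.sum_congr rfl fun _ _ => Finset.sum_congr rfl fun _ _ => by ring

theorem map_quadVal {S : Type*} [CommRing S] (φ : R →+* S) (A : ι → ι → R) (v : ι → R) :
    φ (quadVal A v) = quadVal (fun i j => φ (A i j)) (φ ∘ v) := by
  simp [quadVal]

theorem quadVal_smul (A : ι → ι → R) (a : R) (v : ι → R) :
    quadVal A (a • v) = a ^ 2 * quadVal A v := by
  simp only [quadVal, Pi.smul_apply, smul_eq_mul, Finset.mul_sum]
  exact Finset.sum_congr rfl fun _ _ => Finset.sum_congr rfl fun _ _ => by ring

theorem polVal_smul_left (A : ι → ι → R) (a : R) (u v : ι → R) :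
    polVal A (a • u) v = a * polVal A u v := by
  simp only [polVal, Pi.smul_apply, smul_eq_mul, Finset.mul_sum]
  exact Finset.sum_congr rfl fun _ _ => Finset.sum_congr rfl fun _ _ => by ring

variable {k : Type*} [Field k]

/-- The member `f + t g` of the pencil. -/
def pencilMat (A B : ι → ι → k) : ι → ι → k[X] := fun i j => C (A i j) + X * C (B i j)

theorem quadVal_pencil_const (A B : ι → ι → k) (e : ι → k) :
    quadVal (pencilMat A B) (fun i => C (e i)) = C (quadVal A e) + X * C (quadVal B e) := by
  simp only [quadVal, pencilMat, map_sum, map_mul, Finset.mul_sum, ← Finset.sum_add_distrib]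
  exact Finset.sum_congr rfl fun _ _ => Finset.sum_congr rfl fun _ _ => by ring

theorem natDegree_polVal_le (A B : ι → ι → k) {e : ι → k} {v : ι → k[X]} {m : ℕ}
    (hv : ∀ i, (v i).natDegree ≤ m) :
    (polVal (pencilMat A B) (fun i => C (e i)) v).natDegree ≤ m + 1 := by
  refine natDegree_sum_le_of_forall_le _ _ fun i _ =>
    natDegree_sum_le_of_forall_le _ _ fun j _ => ?_
  beta_reduce
  refine natDegree_mul_le.trans ?_
  have h1 : (pencilMat A B i j).natDegree ≤ 1 :=
    natDegree_add_le_of_degree_le (by simp) (natDegree_mul_le.trans (by simp))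
  have h2 : (C (e i) * v j + v i * C (e j)).natDegree ≤ m :=
    natDegree_add_le_of_degree_le ((natDegree_C_mul_le _ _).trans (hv j))
      ((natDegree_mul_C_le _ _).trans (hv i))
  omega

theorem natDegree_quadVal_le (A B : ι → ι → k) {v : ι → k[X]} {m : ℕ}
    (hv : ∀ i, (v i).natDegree ≤ m) : (quadVal (pencilMat A B) v).natDegree ≤ 2 * m + 1 := by
  refine natDegree_sum_le_of_forall_le _ _ fun i _ =>
    natDegree_sum_le_of_forall_le _ _ fun j _ => ?_
  refine natDegree_mul_le.trans ?_
  have h1 : (pencilMat A B i j).natDegree ≤ 1 :=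
    natDegree_add_le_of_degree_le (by simp) (natDegree_mul_le.trans (by simp))
  have h2 : (pencilMat A B i j * v i).natDegree ≤ 1 + m :=
    natDegree_mul_le.trans (Nat.add_le_add h1 (hv i))
  have := hv j
  omega

/-- A zero of the pencil in polynomials gives a common constant zero. -/
theorem common_of_polynomial (A B : ι → ι → k) :
    ∀ (d : ℕ) (v : ι → k[X]), (∀ i, (v i).natDegree ≤ d) → v ≠ 0 →
      quadVal (pencilMat A B) v = 0 →
      ∃ e : ι → k, e ≠ 0 ∧ quadVal A e = 0 ∧ quadVal B e = 0 := by
  intro d
  induction d with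
  | zero =>
    intro v hv hv0 hQ
    set e : ι → k := fun i => (v i).coeff 0
    have hve : v = fun i => C (e i) := funext fun i => eq_C_of_natDegree_le_zero (hv i)
    rw [hve, quadVal_pencil_const] at hQ
    refine ⟨e, fun h => hv0 (by rw [hve, h]; funext i; simp), ?_, ?_⟩
    · simpa using congrArg (fun p : k[X] => p.coeff 0) hQ
    · simpa [coeff_C] using congrArg (fun p : k[X] => p.coeff 1) hQ
  | succ n ih =>
    intro v hv hv0 hQ
    set e : ι → k := fun i => (v i).coeff (n + 1) with he
    set c : ι → k[X] := fun i => C (e i) with hc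
    set v' : ι → k[X] := fun i => v i - X ^ (n + 1) * c i with hv'
    have hd' : ∀ i, (v' i).natDegree ≤ n := fun i => by
      refine natDegree_le_iff_coeff_eq_zero.2 fun N hN => ?_
      simp only [hv', hc, coeff_sub, coeff_X_pow_mul', coeff_C]
      rcases eq_or_lt_of_le (Nat.succ_le_iff.2 hN) with h | h
      · simp [← h, he]
      · rw [coeff_eq_zero_of_natDegree_lt (lt_of_le_of_lt (hv i) h),
          if_pos (show n + 1 ≤ N by omega),
          if_neg (show ¬N - (n + 1) = 0 by omega), sub_zero]
    by_cases he0 : e = 0
    · refine ih v (fun i => ?_) hv0 hQ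
      have : v' i = v i := by simp [hv', hc, he0]
      exact this ▸ hd' i
    have hvv : v = (X ^ (n + 1) : k[X]) • c + (1 : k[X]) • v' := by
      funext i; simp [hv']
    set S₀ := polVal (pencilMat A B) c v' with hS₀
    set f := quadVal A e
    set g := quadVal B e
    have hexp : quadVal (pencilMat A B) v = (X ^ (n + 1)) ^ 2 * (C f + X * C g) +
        X ^ (n + 1) * S₀ + quadVal (pencilMat A B) v' := by
      rw [hvv, quadVal_add_smul, hc, quadVal_pencil_const, ← hc]
      ring
    rw [hQ] at hexp
    have hS : S₀.natDegree ≤ n + 1 := natDegree_polVal_le A B hd'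
    have hQ' : (quadVal (pencilMat A B) v').natDegree ≤ 2 * n + 1 := natDegree_quadVal_le A B hd'
    have hg : g = 0 := by
      have h := congrArg (fun p : k[X] => p.coeff (2 * n + 3)) hexp
      simp only [coeff_zero, coeff_add, ← pow_mul, coeff_X_pow_mul'] at h
      rw [if_pos (by omega), if_pos (by omega),
        coeff_eq_zero_of_natDegree_lt (show S₀.natDegree < 2 * n + 3 - (n + 1) by omega),
        coeff_eq_zero_of_natDegree_lt (lt_of_le_of_lt hQ' (by omega)),
        show 2 * n + 3 - (n + 1) * 2 = 1 by omega] at h
      simpa [coeff_C] using h.symm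
    have hf : S₀.coeff (n + 1) = -f := by
      have h := congrArg (fun p : k[X] => p.coeff (2 * n + 2)) hexp
      simp only [coeff_zero, coeff_add, ← pow_mul, coeff_X_pow_mul'] at h
      rw [if_pos (by omega), if_pos (by omega),
        coeff_eq_zero_of_natDegree_lt (lt_of_le_of_lt hQ' (by omega)),
        show 2 * n + 2 - (n + 1) * 2 = 0 by omega,
        show 2 * n + 2 - (n + 1) = n + 1 by omega] at h
      simp [coeff_C] at h
      linear_combination -h
    by_cases hf0 : f = 0
    · exact ⟨e, he0, hf0, hg⟩
    -- the reflected zero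
    set T := C f * X ^ (n + 1) + S₀ with hT
    have hTdeg : T.natDegree ≤ n := by
      refine natDegree_le_iff_coeff_eq_zero.2 fun N hN => ?_
      rw [hT, coeff_add, coeff_C_mul_X_pow]
      rcases eq_or_lt_of_le (Nat.succ_le_iff.2 hN) with h | h
      · rw [if_pos h.symm, ← h, hf, add_neg_cancel]
      · rw [if_neg (by omega), coeff_eq_zero_of_natDegree_lt (by omega), add_zero]
    set w := C f • v' + (-T) • c with hw
    have hw_eq : w = C f • v + (-(C f * X ^ (n + 1) + T)) • c := by
      funext i
      simp [hw, hvv]
      ring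
    have hwdeg : ∀ i, (w i).natDegree ≤ n := fun i =>
      natDegree_add_le_of_degree_le ((natDegree_C_mul_le _ _).trans (hd' i))
        ((natDegree_mul_C_le _ _).trans ((natDegree_neg T).trans_le hTdeg))
    have hQc : quadVal (pencilMat A B) c = C f := by
      rw [hc, quadVal_pencil_const, show quadVal B e = 0 from hg]; simp [f]
    have hwQ : quadVal (pencilMat A B) w = 0 := by
      rw [hw, quadVal_add_smul, hQc]
      have hp : polVal (pencilMat A B) v' c = S₀ := by
        simp only [hS₀, polVal]
        exact Finset.sum_congr rfl fun _ _ => Finset.sum_congr rfl fun _ _ => by ring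
      have h0 : quadVal (pencilMat A B) v' = -((X ^ (n + 1)) ^ 2 * C f + X ^ (n + 1) * S₀) := by
        rw [hg] at hexp
        simp at hexp
        linear_combination -hexp
      rw [hp, h0, hT]
      ring
    refine ih w hwdeg (fun hw0 => ?_) hwQ
    have h1 : C f • v = (C f * X ^ (n + 1) + T) • c := by
      funext i
      have := congrFun (hw_eq.symm.trans hw0) i
      simp at this ⊢
      linear_combination this
    have h2 := congrArg (quadVal (pencilMat A B)) h1
    rw [quadVal_smul, quadVal_smul, hQ, hQc, mul_zero, eq_comm, mul_eq_zero,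
      or_iff_left (by simpa using hf0), sq_eq_zero_iff] at h2
    rw [h2, zero_smul] at h1
    exact hv0 ((smul_eq_zero.1 h1).resolve_left (by simpa using hf0))

/-- **Amer–Brumer**. -/
theorem amer_brumer_iff (A B : ι → ι → k) :
    (∃ e : ι → k, e ≠ 0 ∧ quadVal A e = 0 ∧ quadVal B e = 0) ↔
      ∃ v : ι → RatFunc k, v ≠ 0 ∧
        quadVal (fun i j => RatFunc.C (A i j) + RatFunc.X * RatFunc.C (B i j)) v = 0 := by
  set φ := algebraMap k[X] (RatFunc k) with hφ
  have hM : (fun i j => RatFunc.C (A i j) + RatFunc.X * RatFunc.C (B i j)) =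
      fun i j => φ (pencilMat A B i j) := by
    funext i j; simp [pencilMat, φ]; ring
  rw [hM]
  constructor
  · rintro ⟨e, he, hA, hB⟩
    refine ⟨φ ∘ fun i => C (e i), fun h => he (funext fun i => ?_), ?_⟩
    · have := congrFun h i
      simpa [φ] using this
    · rw [← map_quadVal, quadVal_pencil_const, hA, hB]; simp
  · rintro ⟨v, hv, hQ⟩
    obtain ⟨b, hb⟩ := IsLocalization.exist_integer_multiples_of_finite (nonZeroDivisors k[X]) v
    choose p hp using hb
    have hp' : φ ∘ p = φ b • v := funext fun i => by
      rw [Function.comp_apply, hφ, hp i, Algebra.smul_def]; rfl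
    have hinj : Function.Injective φ := RatFunc.algebraMap_injective k
    refine common_of_polynomial A B (Finset.univ.sup fun i => (p i).natDegree) p
      (fun i => Finset.le_sup (f := fun i => (p i).natDegree) (Finset.mem_univ i))
      (fun h => hv ?_) (hinj ?_)
    · have : φ b • v = 0 := by rw [← hp', h]; funext i; simp
      exact (smul_eq_zero.1 this).resolve_left
        ((map_ne_zero_iff _ hinj).2 (nonZeroDivisors.coe_ne_zero b))
    · rw [map_quadVal, hp', quadVal_smul, hQ, mul_zero, map_zero]

end FA.AmerBrumer
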